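import Fermat.Agent.S27.Dim.Spec

/-!
# Row S27, block DIM: the Mathlib-only leaves CHART-AT and LOC (helper565)

* `chartAt k : Dim.Stmt.ChartAt k` : every `k`-point of a `k`-scheme lies in an affine open chart
  `j : Spec R ↪ J` over `k`, and is `Spec` of a `k`-algebra map `x : R →ₐ[k] k`.
* `loc k : Dim.Stmt.Loc k` : a point with values in an augmented `k`-algebra `π : A → k` with nil
  kernel, whose restriction to `k` lies in the chart, lies in the chart (`Spec A` is one point).
-/

set_option autoImplicit false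
universe u
open CategoryTheory CategoryTheory.Limits AlgebraicGeometry

namespace Fermat.Agent.S27.H565

open Fermat.Agent.S25

/-- A morphism into the source of an open immersion from a factorisation of the range. -/
theorem exists_lift_of_range_subset {X Y Z : Scheme.{u}} (j : Y ⟶ Z) [IsOpenImmersion j]
    (t : X ⟶ Z) (h : Set.range t ⊆ Set.range j) : ∃ t' : X ⟶ Y, t' ≫ j = t :=
  ⟨IsOpenImmersion.lift j t h, IsOpenImmersion.lift_fac j t h⟩

/-- A morphism between affine schemes is `Spec` of a unique ring homomorphism. -/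
theorem exists_ringHom_of_specHom {A B : Type u} [CommRing A] [CommRing B]
    (g : Spec (CommRingCat.of B) ⟶ Spec (CommRingCat.of A)) :
    ∃ φ : A →+* B, g = Spec.map (CommRingCat.ofHom φ) :=
  ⟨(Spec.preimage g).hom, by rw [CommRingCat.ofHom_hom, Spec.map_preimage]⟩

theorem ringHom_eq_of_specMap_eq {A B : Type u} [CommRing A] [CommRing B] (φ ψ : A →+* B)
    (h : Spec.map (CommRingCat.ofHom φ) = Spec.map (CommRingCat.ofHom ψ)) : φ = ψ := by
  have := Spec.map_injective h
  exact congrArg CommRingCat.Hom.hom this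

/-- **CHART-AT.** -/
theorem chartAt (k : Type u) [Field k] : Dim.Stmt.ChartAt k := by
  intro J f z hz
  let pt : Spec (CommRingCat.of k) := IsLocalRing.closedPoint k
  obtain ⟨U, hU, hzU⟩ : ∃ U : J.Opens, IsAffineOpen U ∧ z.base pt ∈ U := by
    obtain ⟨U, hU, hx, -⟩ := exists_isAffineOpen_mem_and_subset (X := J) (x := z.base pt)
      (U := ⊤) trivial
    exact ⟨U, hU, hx⟩
  obtain ⟨φ, hφ⟩ := exists_ringHom_of_specHom (A := k) (B := Γ(J, U)) (hU.fromSpec ≫ f)
  have hrange : Set.range z ⊆ Set.range (hU.fromSpec) := by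
    rintro _ ⟨p, rfl⟩
    rw [hU.range_fromSpec]
    have : p = pt := Subsingleton.elim _ _
    rw [this]
    exact hzU
  obtain ⟨z', hz'⟩ := exists_lift_of_range_subset hU.fromSpec z hrange
  obtain ⟨ψ, hψ⟩ := exists_ringHom_of_specHom (A := Γ(J, U)) (B := k) z'
  have hcomp : ψ.comp φ = RingHom.id k := by
    apply ringHom_eq_of_specMap_eq
    rw [CommRingCat.ofHom_comp, Spec.map_comp, ← hψ, ← hφ, ← Category.assoc, hz', hz]
    exact (Spec.map_id _).symm
  letI : Algebra k Γ(J, U) := φ.toAlgebra
  have hcomm : ∀ a : k, ψ (algebraMap k Γ(J, U) a) = algebraMap k k a := fun a =>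
    congrArg (fun g : k →+* k => g a) hcomp
  let x : Γ(J, U) →ₐ[k] k := { ψ with commutes' := hcomm }
  refine ⟨Γ(J, U), inferInstance, φ.toAlgebra, hU.fromSpec, inferInstance, x, hφ, ?_⟩
  rw [← hz', hψ]

/-- The spectrum of an augmented algebra with nil augmentation kernel is one point: the image
of the point of `Spec k`. -/
theorem range_specMap_eq_univ_of_nil {k A : Type u} [Field k] [CommRing A] (π : A →+* k)
    (hsurj : Function.Surjective π) (hπ : ∀ a ∈ RingHom.ker π, IsNilpotent a) :
    Set.range (Spec.map (CommRingCat.ofHom π)).base = Set.univ := by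
  refine Set.eq_univ_of_forall fun p => ?_
  refine ⟨IsLocalRing.closedPoint k, ?_⟩
  have hmax : (RingHom.ker π).IsMaximal := RingHom.ker_isMaximal_of_surjective π hsurj
  have hle : RingHom.ker π ≤ p.asIdeal := fun a ha => by
    obtain ⟨n, hn⟩ := hπ a ha
    exact p.isPrime.mem_of_pow_mem n (hn ▸ p.asIdeal.zero_mem)
  have heq : RingHom.ker π = p.asIdeal := hmax.eq_of_le p.isPrime.ne_top hle
  apply PrimeSpectrum.ext
  show Ideal.comap π (IsLocalRing.closedPoint k).asIdeal = p.asIdeal
  rw [← heq]
  show Ideal.comap π (IsLocalRing.maximalIdeal k) = RingHom.ker π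
  rw [IsLocalRing.maximalIdeal_eq_bot, RingHom.ker]

/-- **LOC.** -/
theorem loc (k : Type u) [Field k] : Dim.Stmt.Loc k := by
  intro J f R _ _ j _ hj x A _ _ π hπ t ht
  have hsurj : Function.Surjective π.toRingHom := fun a =>
    ⟨algebraMap k A a, by simp⟩
  have huniv := range_specMap_eq_univ_of_nil π.toRingHom hsurj hπ
  have hrange : Set.range t.1 ⊆ Set.range j := by
    rintro _ ⟨p, rfl⟩
    obtain ⟨q, rfl⟩ : p ∈ Set.range (Spec.map (CommRingCat.ofHom π.toRingHom)).base := by
      rw [huniv]; trivial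
    refine ⟨(Spec.map (CommRingCat.ofHom x.toRingHom)).base q, ?_⟩
    have := congrArg (fun g : Spec (CommRingCat.of k) ⟶ J => g.base q) ht
    simpa using this.symm
  obtain ⟨t', ht'⟩ := exists_lift_of_range_subset j t.1 hrange
  obtain ⟨φ₀, hφ₀⟩ := exists_ringHom_of_specHom (A := R) (B := A) t'
  have halg : φ₀.comp (algebraMap k R) = algebraMap k A := by
    apply ringHom_eq_of_specMap_eq
    rw [CommRingCat.ofHom_comp, Spec.map_comp, ← hφ₀]
    have h1 : Spec.map (CommRingCat.ofHom (algebraMap k R)) = j ≫ f := hj.symm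
    rw [h1, ← Category.assoc, ht']
    exact t.2
  let φ : R →ₐ[k] A :=
    { φ₀ with commutes' := fun a => congrArg (fun g : k →+* A => g a) halg }
  have hφ : t.1 = Spec.map (CommRingCat.ofHom φ.toRingHom) ≫ j := by
    rw [← ht', hφ₀]
  refine ⟨φ, hφ, ?_⟩
  have h2 : Spec.map (CommRingCat.ofHom (π.toRingHom.comp φ.toRingHom)) =
      Spec.map (CommRingCat.ofHom x.toRingHom) := by
    rw [CommRingCat.ofHom_comp, Spec.map_comp]
    have hmono : Mono j := inferInstance
    rw [← cancel_mono j, Category.assoc, ← hφ, ht]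
  have h3 := ringHom_eq_of_specMap_eq _ _ h2
  ext r
  exact congrArg (fun g : R →+* k => g r) h3

end Fermat.Agent.S27.H565
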