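import Fermat.Agent.S27.H566.TangentRank

/-!
# Row S27, block DIM: tangent vectors as points with values in `k ⊕ V` (helper565)

Pure algebra (Mathlib + `H566.pointModule`).  `x : R →ₐ[k] k` a `k`-point of a `k`-algebra `R`.

* `tsHom x D hD : R →ₐ[k] TrivSqZeroExt k V` for a `k`-linear `D : R → V` with
  `D (r s) = x r • D s + x s • D r`;
* `fstHom_comp_tsHom`, `map_comp_tsHom`, `eq_tsHom_of_fst` (every lift of `x` is a `tsHom`);
* `derLin d`, `derHom x d : R →ₐ[k] k[ε]` for a derivation `d ∈ Der_k(R, k_x)`;
* `univLin x : R →ₗ[k] Dual (Der)`, `univHom x : R →ₐ[k] k ⊕ Dual (Der)`: the universal tangent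
  vector, with `map (eval d) ∘ univHom = derHom d`.
-/

set_option autoImplicit false
set_option linter.style.haveILetI false
universe u

namespace Fermat.Agent.S27.H565

open Fermat.Agent.S27.H566 TrivSqZeroExt

section TsHom

variable {k R : Type u} [Field k] [CommRing R] [Algebra k R]
variable {V : Type u} [AddCommGroup V] [Module k V] [Module kᵐᵒᵖ V] [IsCentralScalar k V]

/-- `D` is a point derivation at `x` with values in `V`. -/
def IsPointDer (x : R →ₐ[k] k) (D : R →ₗ[k] V) : Prop :=
  ∀ r s, D (r * s) = x r • D s + x s • D r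

theorem IsPointDer.map_one {x : R →ₐ[k] k} {D : R →ₗ[k] V} (hD : IsPointDer x D) :
    D 1 = 0 := by
  have h := hD 1 1
  rw [mul_one, _root_.map_one x, one_smul] at h
  exact left_eq_add.mp h

/-- The `k`-algebra map `R → k ⊕ V`, `r ↦ (x r, D r)`. -/
def tsHom (x : R →ₐ[k] k) (D : R →ₗ[k] V) (hD : IsPointDer x D) :
    R →ₐ[k] TrivSqZeroExt k V where
  toFun r := inl (x r) + inr (D r)
  map_one' := by
    rw [_root_.map_one x, hD.map_one, inr_zero, add_zero, inl_one]
  map_mul' r s := by
    apply TrivSqZeroExt.ext
    · simp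
    · simp [hD r s, add_comm]
  map_zero' := by simp
  map_add' r s := by
    apply TrivSqZeroExt.ext
    · simp
    · simp
  commutes' a := by
    have h1 : D (algebraMap k R a) = 0 := by
      rw [Algebra.algebraMap_eq_smul_one, map_smul, hD.map_one, smul_zero]
    simp [h1, algebraMap_eq_inl]

@[simp]
theorem fst_tsHom (x : R →ₐ[k] k) (D : R →ₗ[k] V) (hD : IsPointDer x D) (r : R) :
    (tsHom x D hD r).fst = x r := by
  simp [tsHom]

@[simp]
theorem snd_tsHom (x : R →ₐ[k] k) (D : R →ₗ[k] V) (hD : IsPointDer x D) (r : R) :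
    (tsHom x D hD r).snd = D r := by
  simp [tsHom]

theorem fstHom_comp_tsHom (x : R →ₐ[k] k) (D : R →ₗ[k] V) (hD : IsPointDer x D) :
    (fstHom k k V).comp (tsHom x D hD) = x := by
  ext r
  simp

theorem isPointDer_comp {V' : Type u} [AddCommGroup V'] [Module k V'] [Module kᵐᵒᵖ V']
    [IsCentralScalar k V'] {x : R →ₐ[k] k} {D : R →ₗ[k] V} (hD : IsPointDer x D)
    (δ : V →ₗ[k] V') : IsPointDer x (δ ∘ₗ D) := fun r s => by
  simp [hD r s]

theorem map_comp_tsHom {V' : Type u} [AddCommGroup V'] [Module k V'] [Module kᵐᵒᵖ V']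
    [IsCentralScalar k V'] (x : R →ₐ[k] k) (D : R →ₗ[k] V) (hD : IsPointDer x D)
    (δ : V →ₗ[k] V') :
    (TrivSqZeroExt.map δ).comp (tsHom x D hD) = tsHom x (δ ∘ₗ D) (isPointDer_comp hD δ) := by
  ext r <;> simp

/-- Every lift of `x` to `k ⊕ V` is of the form `tsHom x D`. -/
theorem eq_tsHom_of_fst (x : R →ₐ[k] k) (φ : R →ₐ[k] TrivSqZeroExt k V)
    (hφ : (fstHom k k V).comp φ = x) :
    ∃ (D : R →ₗ[k] V) (hD : IsPointDer x D), φ = tsHom x D hD := by
  have hx : ∀ r, (φ r).fst = x r := fun r => congrArg (fun g : R →ₐ[k] k => g r) hφ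
  let D : R →ₗ[k] V :=
    { toFun := fun r => (φ r).snd
      map_add' := fun r s => by simp
      map_smul' := fun a r => by simp }
  have hD : IsPointDer x D := fun r s => by
    show (φ (r * s)).snd = x r • (φ s).snd + x s • (φ r).snd
    rw [map_mul, snd_mul, hx, hx, op_smul_eq_smul]
  refine ⟨D, hD, ?_⟩
  ext r
  · simp [hx]
  · simp [D]

end TsHom

section PointDer

variable {k R : Type u} [Field k] [CommRing R] [Algebra k R] (x : R →ₐ[k] k)

/-- The space of point derivations at `x` with values in `k`. -/
def pointDer : Submodule k (R →ₗ[k] k) where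
  carrier := {D | IsPointDer x D}
  zero_mem' := fun r s => by simp
  add_mem' := fun {D D'} hD hD' r s => by
    simp only [LinearMap.add_apply, hD r s, hD' r s, smul_add]
    abel
  smul_mem' := fun a D hD r s => by
    simp only [LinearMap.smul_apply, hD r s, smul_eq_mul]
    ring

theorem mem_pointDer {D : R →ₗ[k] k} : D ∈ pointDer x ↔ IsPointDer x D := Iff.rfl

/-- Point derivations are the same thing as derivations with values in `k_x`. -/
def derEquiv :
    letI := pointModule x
    haveI := pointModule_isScalarTower x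
    haveI := pointModule_smulCommClass x
    Derivation k R k ≃ₗ[k] pointDer x :=
  letI := pointModule x
  haveI := pointModule_isScalarTower x
  haveI := pointModule_smulCommClass x
  { toFun := fun d => ⟨(d : R →ₗ[k] k), fun r s => by
      show d (r * s) = x r • d s + x s • d r
      rw [d.leibniz]
      rfl⟩
    map_add' := fun d d' => rfl
    map_smul' := fun a d => rfl
    invFun := fun D =>
      { toLinearMap := D.1
        map_one_eq_zero' := D.2.map_one
        leibniz' := fun r s => by
          show D.1 (r * s) = x r * D.1 s + x s * D.1 r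
          exact D.2 r s }
    left_inv := fun d => rfl
    right_inv := fun D => rfl }

theorem finrank_derivation_eq_finrank_pointDer :
    letI := pointModule x
    haveI := pointModule_isScalarTower x
    haveI := pointModule_smulCommClass x
    Module.finrank k (Derivation k R k) = Module.finrank k (pointDer x) :=
  letI := pointModule x
  haveI := pointModule_isScalarTower x
  haveI := pointModule_smulCommClass x
  (derEquiv x).finrank_eq

/-- The universal point derivation `R → Dual (pointDer x)`, `r ↦ (D ↦ D r)`. -/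
def univLin : R →ₗ[k] Module.Dual k (pointDer x) where
  toFun r := LinearMap.applyₗ r ∘ₗ (pointDer x).subtype
  map_add' r s := by
    ext D
    simp
  map_smul' a r := by
    ext D
    simp

@[simp]
theorem univLin_apply (r : R) (D : pointDer x) : univLin x r D = D.1 r := rfl

theorem isPointDer_univLin : IsPointDer x (univLin x) := fun r s => by
  ext D
  simp only [univLin_apply, LinearMap.add_apply, LinearMap.smul_apply]
  exact D.2 r s

/-- The universal tangent vector `R → k ⊕ Dual (pointDer x)`. -/
def univHom : R →ₐ[k] TrivSqZeroExt k (Module.Dual k (pointDer x)) :=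
  tsHom x (univLin x) (isPointDer_univLin x)

/-- The tangent vector `R → k[ε]` of a point derivation. -/
def derHom (D : pointDer x) : R →ₐ[k] TrivSqZeroExt k k := tsHom x D.1 D.2

/-- Evaluation at `D`, as a linear form on the dual. -/
def evalAtDer (D : pointDer x) : Module.Dual k (pointDer x) →ₗ[k] k := LinearMap.applyₗ D

theorem map_evalAtDer_comp_univHom (D : pointDer x) :
    (TrivSqZeroExt.map (evalAtDer x D)).comp (univHom x) = derHom x D := by
  rw [univHom, map_comp_tsHom]
  rfl

theorem fstHom_comp_univHom :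
    (fstHom k k (Module.Dual k (pointDer x))).comp (univHom x) = x :=
  fstHom_comp_tsHom _ _ _

theorem fstHom_comp_derHom (D : pointDer x) : (fstHom k k k).comp (derHom x D) = x :=
  fstHom_comp_tsHom _ _ _

/-- Every lift of `x` to the dual numbers is the tangent vector of a point derivation. -/
theorem exists_derHom_eq (φ : R →ₐ[k] TrivSqZeroExt k k) (hφ : (fstHom k k k).comp φ = x) :
    ∃ D : pointDer x, φ = derHom x D := by
  obtain ⟨D, hD, h⟩ := eq_tsHom_of_fst x φ hφ
  exact ⟨⟨D, hD⟩, h⟩

theorem derHom_injective : Function.Injective (derHom x) := fun D D' h => by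
  apply Subtype.ext
  ext r
  have := congrArg (fun g : R →ₐ[k] TrivSqZeroExt k k => (g r).snd) h
  simpa [derHom] using this

/-- The kernel of the augmentation of `k ⊕ V` is nil. -/
theorem isNilpotent_of_mem_ker_fstHom {V : Type u} [AddCommGroup V] [Module k V]
    [Module kᵐᵒᵖ V] [IsCentralScalar k V] (a : TrivSqZeroExt k V)
    (ha : a ∈ RingHom.ker (fstHom k k V).toRingHom) : IsNilpotent a := by
  refine ⟨2, ?_⟩
  have h0 : a.fst = 0 := ha
  apply TrivSqZeroExt.ext
  · simp [pow_two, h0]
  · simp [pow_two, h0]

end PointDer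

end Fermat.Agent.S27.H565
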