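import Fermat.Agent.S27.Dim.Spec
import Fermat.Agent.S27.H565.TanAlg
import Fermat.Agent.S25.H265.GDCBaseChange
import Fermat.Agent.S25.H265.GDCCurve

/-!
# Row S27, block DIM: `tan_of_leaves` (Route A of the board; helper565)

`ChartAt + Loc + PtsDictA + Twist ⇒ Tan`: the tangent space of the Jacobian at the zero section is
`Ȟ¹` of the unit gluing datum.
-/

set_option autoImplicit false
set_option linter.style.haveILetI false
universe u
open CategoryTheory CategoryTheory.Limits AlgebraicGeometry AlgebraicGeometry.RelPicard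
  NeronModelInfra GoodReductionJacobian
open scoped TensorProduct

namespace Fermat.Agent.S27.H565

open Fermat.Agent.S25 Fermat.Agent.S27.H566 Fermat.Agent.S27.Dim

section Points

variable {k : Type u} [Field k] {J : Scheme.{u}} {f : J ⟶ Spec (CommRingCat.of k)}
  {R : Type u} [CommRing R] [Algebra k R] (j : Spec (CommRingCat.of R) ⟶ J)
  (hj : j ≫ f = specStr k R)

/-- The `A`-point of `J` given by a `k`-algebra map `R → A` and the chart `j : Spec R → J`. -/
noncomputable def chartPt {A : Type u} [CommRing A] [Algebra k A] (φ : R →ₐ[k] A) :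
    SchemeHomOver (specStr k A) f :=
  ⟨Spec.map (CommRingCat.ofHom φ.toRingHom) ≫ j, by
    rw [Category.assoc, hj]
    exact (specHomOver k φ).2⟩

theorem chartPt_val {A : Type u} [CommRing A] [Algebra k A] (φ : R →ₐ[k] A) :
    (chartPt j hj φ).1 = Spec.map (CommRingCat.ofHom φ.toRingHom) ≫ j := rfl

theorem postComp_chartPt {A A' : Type u} [CommRing A] [Algebra k A] [CommRing A']
    [Algebra k A'] (φ : R →ₐ[k] A) (ψ : A →ₐ[k] A') :
    postComp (chartPt j hj φ) (specHomOver k ψ) = chartPt j hj (ψ.comp φ) := by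
  apply Subtype.ext
  show Spec.map (CommRingCat.ofHom ψ.toRingHom) ≫
    Spec.map (CommRingCat.ofHom φ.toRingHom) ≫ j = Spec.map _ ≫ j
  rw [← Category.assoc, ← Spec.map_comp]
  rfl

theorem chartPt_injective [IsOpenImmersion j] {A : Type u} [CommRing A] [Algebra k A]
    (φ ψ : R →ₐ[k] A) (h : chartPt j hj φ = chartPt j hj ψ) : φ = ψ := by
  have h1 : Spec.map (CommRingCat.ofHom φ.toRingHom) ≫ j =
      Spec.map (CommRingCat.ofHom ψ.toRingHom) ≫ j := congrArg Subtype.val h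
  have hmono : Mono j := inferInstance
  rw [cancel_mono] at h1
  have h2 := Spec.map_injective h1
  have h3 : φ.toRingHom = ψ.toRingHom := congrArg CommRingCat.Hom.hom h2
  ext r
  exact congrArg (fun g : R →+* A => g r) h3

end Points

/-- **TAN from its leaves** (Route A). -/
theorem tan_of_leaves (k : Type u) [Field k] (hCA : Stmt.ChartAt k) (hLoc : Stmt.Loc k)
    (hPD : Stmt.PtsDictA k)
    (hTw : ∀ (B₀ B₁ B₀₁ : Type u) [CommRing B₀] [CommRing B₁] [CommRing B₀₁]
      [Algebra k B₀] [Algebra k B₁] [Algebra k B₀₁] [Algebra B₀ B₀₁] [Algebra B₁ B₀₁]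
      [IsScalarTower k B₀ B₀₁] [IsScalarTower k B₁ B₀₁], Stmt.Twist k B₀ B₁ B₀₁) :
    Stmt.Tan k := by
  intro _ C c _ _ _ ε Ch D hrep _ _ _
  obtain ⟨R, _, _, j, hjo, x, hj, hxz⟩ := hCA D.toBase D.zeroSection D.zeroSection_toBase
  obtain ⟨hP1, hP2, hP3, hP4, hP5⟩ := hPD c ε Ch D hrep
  obtain ⟨tw, hT1, hT2, hT3, hT4, hT5⟩ :=
    hTw Ch.B₀ Ch.B₁ Ch.B₀₁ Ch.x Ch.y Ch.e Ch.isCurveChart
  have hzero : zeroPt D = chartPt j hj x := Subtype.ext hxz.symm
  -- the datum of the universal tangent vector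
  obtain ⟨Gu, hGu⟩ := hP1 (TrivSqZeroExt k (Module.Dual k (pointDer x)))
    (chartPt j hj (univHom x))
  obtain ⟨G0, hG0⟩ := H265.curveGD_exists_isBC (augHom k (Module.Dual k (pointDer x))) Gu
  have hc0 : Corr Ch k (hrep.poincare.pullbackAlong (zeroPt D)).L G0 := by
    have h := hP4 _ _ (augHom k (Module.Dual k (pointDer x))) _ Gu G0 hGu hG0
    rw [postComp_chartPt, fstHom_comp_univHom x, ← hzero] at h
    exact h
  have hiso0 : G0.IsIso (unitK k Ch.B₀ Ch.B₁ Ch.B₀₁) := (hP3 k _ _ _ _ hc0 hP5).1 rfl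
  obtain ⟨ξu, hξu⟩ := hT2 (Module.Dual k (pointDer x)) Gu G0 hG0 hiso0
  -- the datum of the tangent vector of a point derivation
  have hstar : ∀ D' : pointDer x, Corr Ch (TrivSqZeroExt k k)
      (hrep.poincare.pullbackAlong (chartPt j hj (derHom x D'))).L
      (tw k (LinearMap.rTensor Ch.B₀₁ (evalAtDer x D') ξu)) := by
    intro D'
    have hbc := hT3 (Module.Dual k (pointDer x)) k (evalAtDer x D') ξu
    have hbc' := H265.curveGD_isBC_of_isIso_left (H265.isIso_symm hξu) hbc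
    have h := hP4 _ _ (TrivSqZeroExt.map (evalAtDer x D')) _ Gu _ hGu hbc'
    rw [postComp_chartPt, map_evalAtDer_comp_univHom] at h
    exact h
  -- the comparison map
  let Ψ : pointDer x →ₗ[k] k ⊗[k] Ch.B₀₁ :=
    (LinearMap.applyₗ ξu) ∘ₗ (LinearMap.rTensorHom Ch.B₀₁) ∘ₗ
      (LinearMap.applyₗ : pointDer x →ₗ[k] (Module.Dual k (pointDer x) →ₗ[k] k))
  have hΨ : ∀ D' : pointDer x, Ψ D' = LinearMap.rTensor Ch.B₀₁ (evalAtDer x D') ξu :=
    fun D' => rfl
  let Φ : pointDer x →ₗ[k] (unitK k Ch.B₀ Ch.B₁ Ch.B₀₁).H1 :=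
    (LinearMap.range (unitK k Ch.B₀ Ch.B₁ Ch.B₀₁).cech).mkQ ∘ₗ Ψ
  have hΦ : ∀ D' : pointDer x, Φ D' =
      (Submodule.Quotient.mk (LinearMap.rTensor Ch.B₀₁ (evalAtDer x D') ξu) :
        (unitK k Ch.B₀ Ch.B₁ Ch.B₀₁).H1) := fun D' => rfl
  have hinj : Function.Injective Φ := by
    intro D₁ D₂ h
    rw [hΦ, hΦ] at h
    have hiso := (hT5 _ _).2 h
    have hpt := (hP3 _ _ _ _ _ (hstar D₁) (hstar D₂)).2 hiso
    exact derHom_injective x (chartPt_injective j hj _ _ hpt)
  have hsurj : Function.Surjective Φ := by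
    intro η
    obtain ⟨ξ, rfl⟩ := Submodule.Quotient.mk_surjective _ η
    obtain ⟨hrig, hdeg, hred⟩ := hT1 k ξ
    obtain ⟨t, ht⟩ := hP2 (TrivSqZeroExt k k) (tw k ξ) hrig hdeg
    have hc1 := hP4 _ _ (augHom k k) t (tw k ξ) _ ht hred
    have hpt0 : postComp t (specHomOver k (augHom k k)) = zeroPt D :=
      (hP3 k _ _ _ _ hc1 hP5).2 (H265.isIso_refl _)
    have hpt1 : Spec.map (CommRingCat.ofHom (augHom k k).toRingHom) ≫ t.1 =
        Spec.map (CommRingCat.ofHom x.toRingHom) ≫ j := by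
      have := congrArg Subtype.val hpt0
      exact this.trans hxz.symm
    obtain ⟨φ, hφ1, hφ2⟩ := hLoc D.toBase R j hj x (TrivSqZeroExt k k) (augHom k k)
      (fun a ha => isNilpotent_of_mem_ker_fstHom a ha) t hpt1
    obtain ⟨D', hD'⟩ := exists_derHom_eq x φ hφ2
    have ht' : t = chartPt j hj (derHom x D') := by
      apply Subtype.ext
      rw [hφ1, hD']
      rfl
    refine ⟨D', ?_⟩
    rw [hΦ]
    rw [ht'] at ht
    exact ((hT5 _ _).1 ((hP3 _ _ _ _ _ ht (hstar D')).1 rfl)).symm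
  have hfin : Module.finrank k (pointDer x) =
      Module.finrank k (unitK k Ch.B₀ Ch.B₁ Ch.B₀₁).H1 :=
    (LinearEquiv.ofBijective Φ ⟨hinj, hsurj⟩).finrank_eq
  refine ⟨R, inferInstance, inferInstance, j, hjo, hj, x, ?_⟩
  show _ = _
  rw [← hfin]
  exact finrank_derivation_eq_finrank_pointDer x

end Fermat.Agent.S27.H565
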